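import Fermat.Agent.GaloisReps.Attach

/-!
# The determinant at elements acting on roots of unity as a natural number
-/

set_option autoImplicit false

noncomputable section

namespace Fermat.Agent.GaloisReps.HeckeGaloisModel

variable {N p : ℕ} [NeZero N] [Fact p.Prime] (D : HeckeGaloisModel N p)
  {O : Type} [CommRing O] [IsDomain O] [IsDiscreteValuationRing O] [CharZero O]
  (ι : ℤ_[p] →+* O) (θ : FullHecke N →+* O)

/-- An element acting on the `p ^ n`-th roots of unity by the exponent `a` has determinant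
congruent to `a` modulo `p ^ n`. -/
theorem det_eigenAction_congr (hp : (p : O) ∈ IsLocalRing.maximalIdeal O) {s : AbsGal} {q n : ℕ}
    (hs : ∀ ζ : AlgebraicClosure ℚ, ζ ^ (p ^ n) = 1 → s ζ = ζ ^ q) :
    (p : O) ^ n ∣ LinearMap.det (D.eigenAction ι θ s) - (q : O) :=
  D.pow_dvd_det_sub ι θ frobeniusDensity hp hs

/-- An element raising all `p`-power roots of unity to the power `q` has determinant `q`. -/
theorem det_eigenAction_of_roots (hp : (p : O) ∈ IsLocalRing.maximalIdeal O) {s : AbsGal} {q : ℕ}
    (hs : ∀ (n : ℕ) (ζ : AlgebraicClosure ℚ), ζ ^ (p ^ n) = 1 → s ζ = ζ ^ q) :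
    LinearMap.det (D.eigenAction ι θ s) = (q : O) :=
  sub_eq_zero.mp (eq_zero_of_forall_pow_dvd hp fun n => D.det_eigenAction_congr ι θ hp (hs n))

end Fermat.Agent.GaloisReps.HeckeGaloisModel
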