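import Mathlib.LinearAlgebra.Charpoly.ToMatrix
import Mathlib.LinearAlgebra.Matrix.Charpoly.Coeff
import Mathlib.LinearAlgebra.Dimension.Constructions
import Mathlib.Tactic.LinearCombination
import Mathlib.Tactic.NoncommRing

/-!
# Unipotent groups of automorphisms of a plane over a domain
-/

set_option autoImplicit false

noncomputable section

open Module Polynomial

namespace Fermat.Agent.NewformLocal

variable {O : Type*} [CommRing O] [IsDomain O] {V : Type*} [AddCommGroup V] [Module O V]
  [Module.Free O V] [Module.Finite O V]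

omit [Module.Free O V] [Module.Finite O V] in
/-- A vector of a plane is a combination of two independent vectors, up to a denominator. -/
lemma exists_smul_eq_comb [Module.Free O V] [Module.Finite O V] (hV : finrank O V = 2) {u w : V}
    (hi : LinearIndependent O ![u, w]) (x : V) :
    ∃ r a b : O, r ≠ 0 ∧ r • x = a • u + b • w := by
  have hnot : ¬ LinearIndependent O ![x, u, w] := fun h => by
    have := h.fintype_card_le_finrank
    rw [hV] at this
    simp at this
  obtain ⟨c, hc, i, hi0⟩ := Fintype.not_linearIndependent_iff.1 hnot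
  simp [Fin.sum_univ_three] at hc
  refine ⟨c 0, -(c 1), -(c 2), fun h0 => ?_, ?_⟩
  · rw [h0, zero_smul, zero_add] at hc
    have := LinearIndependent.pair_iff.1 hi _ _ hc
    fin_cases i <;> simp_all
  · rw [neg_smul, neg_smul, ← neg_add, eq_neg_iff_add_eq_zero, ← add_assoc]
    exact hc

/-- Endomorphisms of a plane of which all products `(1 + n₀)(1 + n)` are unipotent kill the image
of `n₀`. -/
lemma nilp_apply_eq_zero (hV : finrank O V = 2) {n₀ n : Module.End O V} (h₀ : n₀ * n₀ = 0)
    (hn : n * n = 0) (hm : (n₀ + n + n₀ * n) * (n₀ + n + n₀ * n) = 0) (u : V) :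
    n (n₀ u) = 0 := by
  rcases eq_or_ne (n₀ u) 0 with hw | hw
  · rw [hw, map_zero]
  have e₀ : ∀ x, n₀ (n₀ x) = 0 := fun x => LinearMap.congr_fun h₀ x
  have e : ∀ x, n (n x) = 0 := fun x => LinearMap.congr_fun hn x
  have hi : LinearIndependent O ![u, n₀ u] := by
    refine LinearIndependent.pair_iff.2 fun a b hab => ?_
    have h1 := congrArg n₀ hab
    rw [map_add, map_smul, map_smul, e₀, smul_zero, add_zero, map_zero] at h1
    have ha : a = 0 := (smul_eq_zero.1 h1).resolve_right hw
    rw [ha, zero_smul, zero_add] at hab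
    exact ⟨ha, (smul_eq_zero.1 hab).resolve_right hw⟩
  have key : n₀ (n (n₀ (n (n₀ u)))) = 0 := by
    have h := congrArg n₀ (LinearMap.congr_fun hm (n₀ u))
    simp only [Module.End.mul_apply, LinearMap.add_apply, LinearMap.zero_apply, map_zero, map_add,
      e₀, e, zero_add, add_zero] at h
    exact h
  have hz : n₀ (n (n₀ u)) = 0 := by
    obtain ⟨r, a, b, hr, hrab⟩ := exists_smul_eq_comb hV hi (n₀ (n (n₀ u)))
    have h1 := congrArg n₀ hrab
    rw [map_smul, e₀, smul_zero, map_add, map_smul, map_smul, e₀, smul_zero, add_zero] at h1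
    have ha : a = 0 := (smul_eq_zero.1 h1.symm).resolve_right hw
    rw [ha, zero_smul, zero_add] at hrab
    have h2 := congrArg (fun x => n₀ (n x)) hrab
    simp only [map_smul, key, smul_zero] at h2
    rcases smul_eq_zero.1 h2.symm with hb | hb
    · rw [hb, zero_smul] at hrab
      exact (smul_eq_zero.1 hrab).resolve_left hr
    · exact hb
  obtain ⟨r, a, b, hr, hrab⟩ := exists_smul_eq_comb hV hi (n (n₀ u))
  have h1 := congrArg n₀ hrab
  rw [map_smul, hz, smul_zero, map_add, map_smul, map_smul, e₀, smul_zero, add_zero] at h1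
  have ha : a = 0 := (smul_eq_zero.1 h1.symm).resolve_right hw
  rw [ha, zero_smul, zero_add] at hrab
  have h2 := congrArg n hrab
  rw [map_smul, e, smul_zero, map_smul] at h2
  rcases smul_eq_zero.1 h2.symm with hb | hb
  · rw [hb, zero_smul] at hrab
    exact (smul_eq_zero.1 hrab).resolve_left hr
  · exact hb

/-- A group of unipotent automorphisms of a plane fixes a nonzero vector. -/
theorem exists_common_fixed {G : Type*} [Group G] (hV : finrank O V = 2) (ρ : G →* Module.End O V)
    (H : Subgroup G) (hH : ∀ g ∈ H, (ρ g - 1) ^ 2 = 0) :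
    ∃ v : V, v ≠ 0 ∧ ∀ g ∈ H, ρ g v = v := by
  by_cases hall : ∀ g ∈ H, ρ g = 1
  · exact ⟨Module.finBasisOfFinrankEq O V hV 0, Basis.ne_zero _ _, fun g hg => by simp [hall g hg]⟩
  push Not at hall
  obtain ⟨g₀, hg₀, hne⟩ := hall
  obtain ⟨u, hu⟩ : ∃ u, (ρ g₀ - 1) u ≠ 0 := by
    by_contra! h
    exact hne (sub_eq_zero.1 (LinearMap.ext h))
  refine ⟨(ρ g₀ - 1) u, hu, fun g hg => ?_⟩
  have h := nilp_apply_eq_zero hV (n₀ := ρ g₀ - 1) (n := ρ g - 1) (by rw [← pow_two]; exact hH g₀ hg₀)
    (by rw [← pow_two]; exact hH g hg) ?_ u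
  · rwa [LinearMap.sub_apply, Module.End.one_apply, sub_eq_zero] at h
  · have e : ρ g₀ - 1 + (ρ g - 1) + (ρ g₀ - 1) * (ρ g - 1) = ρ (g₀ * g) - 1 := by
      rw [map_mul]; noncomm_ring
    rw [e, ← pow_two]
    exact hH _ (mul_mem hg₀ hg)

/-- If the square of an endomorphism of determinant `q` of a plane is `q ^ 2` on some nonzero
vector, its characteristic polynomial is `(X ∓ q) (X ∓ 1)`. -/
theorem charpoly_eq_of_sq (hV : finrank O V = 2) (F : Module.End O V) (q : O) (hq : q ≠ 0)
    (hdet : LinearMap.det F = q) {v : V} (hv : v ≠ 0) (h2 : F (F v) = q ^ 2 • v) :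
    LinearMap.charpoly F = X ^ 2 - C (q + 1) * X + C q ∨
      LinearMap.charpoly F = X ^ 2 + C (q + 1) * X + C q := by
  classical
  let b := Module.finBasisOfFinrankEq O V hV
  set t := (LinearMap.toMatrix b b F).trace with ht
  have hc : LinearMap.charpoly F = X ^ 2 - C t * X + C q := by
    rw [← LinearMap.charpoly_toMatrix F b, Matrix.charpoly_fin_two, LinearMap.det_toMatrix, hdet]
  have h := LinearMap.congr_fun (LinearMap.aeval_self_charpoly F) v
  rw [hc] at h
  simp only [map_add, map_sub, map_mul, aeval_X, aeval_C, LinearMap.add_apply,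
    LinearMap.sub_apply, Module.End.mul_apply, Module.algebraMap_end_apply, pow_two,
    LinearMap.zero_apply, h2] at h
  have h3 : t • F v = (q ^ 2 + q) • v := by
    rw [add_smul, eq_comm, ← sub_eq_zero, ← h, pow_two]
    abel
  have h4 := congrArg F h3
  rw [map_smul, map_smul, h2] at h4
  have h5 : (t ^ 2 * q ^ 2) • v = ((q ^ 2 + q) * (q ^ 2 + q)) • v := by
    have := congrArg (t • ·) h4
    rw [smul_comm t (q ^ 2 + q), h3, smul_smul, smul_smul, smul_smul] at this
    rw [← this]
    ring_nf
  have h6 : t ^ 2 = (q + 1) ^ 2 := mul_left_cancel₀ (pow_ne_zero 2 hq)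
    (by linear_combination smul_left_injective O hv h5)
  rcases sq_eq_sq_iff_eq_or_eq_neg.1 h6 with h7 | h7
  · exact Or.inl (by rw [hc, h7])
  · exact Or.inr (by rw [hc, h7, map_neg, neg_mul, sub_neg_eq_add])

end Fermat.Agent.NewformLocal
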