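import Fermat.Agent.NewformLocal.Oldness
import Fermat.Agent.NewformLocal.Plane
import Fermat.Agent.NewformLocal.Det
import Fermat.Agent.NewformLocal.NotEisenstein

/-!
# Frobenius at a prime exactly dividing the level, given the local input on the model
-/

set_option autoImplicit false

noncomputable section

open Polynomial CongruenceSubgroup ModularFormClass

namespace Fermat.Agent.NewformLocal

open GaloisReps (AbsGal FullHecke HeckeGaloisModel matIn toFull)

variable {N p : ℕ} [NeZero N] [Fact p.Prime]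

/-- Inertia at `q` acts unipotently on the model. -/
def UnipotentAt (D : HeckeGaloisModel N p) (q : ℕ) : Prop :=
  ∀ A : ValuationSubring (AlgebraicClosure ℚ), A.LiesOverPrime q →
    ∀ τ ∈ A.inertiaSubgroupIn ℚ, (D.gal τ - 1) ^ 2 = 0

/-- The operator `t * (T_ℓ - ℓ - 1)` in the full Hecke algebra. -/
def toricOp (t : CuspForm.heckeAlgebra N 2 (levelPrimes N)) {ℓ : ℕ} (hℓ : ℓ.Prime) :
    FullHecke N :=
  toFull _ t * (HeckeDuality.heckeOp N 2 ℓ hℓ - ((ℓ + 1 : ℕ) : FullHecke N))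

/-- On vectors fixed by inertia at `q`, moved by a Hecke operator killing level `N / q` and by some
`T_ℓ - ℓ - 1`, the square of a Frobenius element at `q` is `q ^ 2`. -/
def ToricSquareAt (D : HeckeGaloisModel N p) (q : ℕ) : Prop :=
  ∀ (R : ℕ) [NeZero R] (hR : R ∣ N), R * q = N →
    ∀ t : CuspForm.heckeAlgebra N 2 (levelPrimes N),
      (∀ f : CuspForm (Gamma0 R) 2, t.1 (Newforms.levelIncl hR f) = 0) →
        ∀ (ℓ : ℕ) (hℓ : ℓ.Prime), ¬ ℓ ∣ N * p →
        ∀ A : ValuationSubring (AlgebraicClosure ℚ), A.LiesOverPrime q →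
          ∀ σ : AbsGal, A.IsFrobeniusAt σ q →
            ∀ v : Fin D.d → ℤ_[p],
              (∀ τ ∈ A.inertiaSubgroupIn ℚ, (D.gal τ).mulVec v = v) →
                (D.gal σ * D.gal σ * matIn D.hecke ℤ_[p] (toricOp t hℓ) -
                  (q : ℤ_[p]) ^ 2 • matIn D.hecke ℤ_[p] (toricOp t hℓ)).mulVec v = 0

section Descent

variable {O : Type} [CommRing O] [IsDomain O] [CharZero O] (ι : ℤ_[p] →+* O) {d : ℕ}

/-- A matrix over `ℤ_[p]` killing the vectors fixed by a family kills them after extension of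
scalars to a domain of characteristic zero. -/
theorem mulVec_eq_zero_of_fixed (G : Set (Matrix (Fin d) (Fin d) ℤ_[p]))
    (X : Matrix (Fin d) (Fin d) ℤ_[p])
    (hX : ∀ w : Fin d → ℤ_[p], (∀ g ∈ G, g.mulVec w = w) → X.mulVec w = 0)
    {v : Fin d → O} (hv : ∀ g ∈ G, (g.map ι).mulVec v = v) : (X.map ι).mulVec v = 0 := by
  classical
  let : Algebra ℤ_[p] O := ι.toAlgebra
  have hinj : Function.Injective (algebraMap ℤ_[p] O) := GaloisReps.injective_padicHom _
  have : Module.IsTorsionFree ℤ_[p] O := Module.isTorsionFree_iff_algebraMap_injective.2 hinj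
  let S : Submodule ℤ_[p] O := Submodule.span ℤ_[p] (Set.range v)
  have : Module.Finite ℤ_[p] S := Module.Finite.span_of_finite ℤ_[p] (Set.finite_range v)
  have : Module.Free ℤ_[p] S := Module.free_of_finite_type_torsion_free'
  let b := Module.finBasis ℤ_[p] S
  let u : Fin d → S := fun i => ⟨v i, Submodule.subset_span ⟨i, rfl⟩⟩
  let w : Fin (Module.finrank ℤ_[p] S) → Fin d → ℤ_[p] := fun k i => b.repr (u i) k
  have hw : ∀ k, ∀ g ∈ G, g.mulVec (w k) = w k := by
    intro k g hg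
    funext i
    have e : ∑ j, g i j • u j = u i := by
      refine Subtype.ext ?_
      rw [Submodule.coe_sum]
      refine Eq.trans (Finset.sum_congr rfl fun j _ => ?_) (congrFun (hv g hg) i)
      rw [Submodule.coe_smul, Algebra.smul_def]
      rfl
    have h := congrArg (fun x => b.repr x k) e
    simp only [map_sum, map_smul, Finsupp.coe_finsetSum, Finset.sum_apply, Finsupp.smul_apply,
      smul_eq_mul] at h
    exact h
  funext i
  have e : ∑ j, X i j • u j = 0 := by
    refine b.repr.injective (Finsupp.ext fun k => ?_)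
    simp only [map_sum, map_smul, Finsupp.coe_finsetSum, Finset.sum_apply, Finsupp.smul_apply,
      smul_eq_mul, map_zero, Finsupp.coe_zero, Pi.zero_apply]
    exact congrFun (hX (w k) (hw k)) i
  have h := congrArg Subtype.val e
  rw [Submodule.coe_sum] at h
  show ∑ j, ι (X i j) * v j = 0
  refine Eq.trans (Finset.sum_congr rfl fun j _ => ?_) h
  rw [Submodule.coe_smul, Algebra.smul_def]
  rfl

end Descent

/-- Inertia at `q` acts unipotently on the eigen-lattice. -/
theorem eigenAction_sub_one_sq {O : Type} [CommRing O] [IsDomain O] [IsDiscreteValuationRing O]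
    [CharZero O] (D : HeckeGaloisModel N p) (ι : ℤ_[p] →+* O) (θ : FullHecke N →+* O) {q : ℕ}
    (hU : UnipotentAt D q) {A : ValuationSubring (AlgebraicClosure ℚ)} (hA : A.LiesOverPrime q)
    {τ : AbsGal} (hτ : τ ∈ A.inertiaSubgroupIn ℚ) : (D.eigenAction ι θ τ - 1) ^ 2 = 0 := by
  refine LinearMap.ext fun v => Subtype.ext ?_
  have h0 := congrArg ι.mapMatrix (hU A hA τ hτ)
  rw [pow_two, map_mul, map_sub, map_one, map_zero, RingHom.mapMatrix_apply] at h0
  have h := congrArg (fun m : Matrix (Fin D.d) (Fin D.d) O => m.mulVec v.1) h0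
  simp only [Matrix.zero_mulVec, ← Matrix.mulVec_mulVec, Matrix.sub_mulVec,
    Matrix.one_mulVec, Matrix.mulVec_sub] at h
  simp only [pow_two, Module.End.mul_apply, LinearMap.sub_apply, Module.End.one_apply,
    AddSubgroupClass.coe_sub, HeckeGaloisModel.coe_eigenAction, LinearMap.zero_apply,
    ZeroMemClass.coe_zero, Matrix.mulVec_sub] at h ⊢
  exact h

/-- The characteristic polynomial of a Frobenius element at `q` on the eigen-lattice. -/
theorem charpoly_frobenius_bad {O : Type} [CommRing O] [IsDomain O] [IsDiscreteValuationRing O]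
    [CharZero O] (D : HeckeGaloisModel N p) (ι : ℤ_[p] →+* O) (θ : FullHecke N →+* O)
    (hp : (p : O) ∈ IsLocalRing.maximalIdeal O) {q R : ℕ} [NeZero R] (hq : q.Prime) (hqp : q ≠ p)
    (hR : R ∣ N) (hRq : R * q = N) (hU : UnipotentAt D q) (hT : ToricSquareAt D q)
    (t : CuspForm.heckeAlgebra N 2 (levelPrimes N))
    (ht : ∀ f : CuspForm (Gamma0 R) 2, t.1 (Newforms.levelIncl hR f) = 0)
    {ℓ : ℕ} (hℓ : ℓ.Prime) (hℓN : ¬ ℓ ∣ N * p) (hθt : θ (toricOp t hℓ) ≠ 0) {A : ValuationSubring (AlgebraicClosure ℚ)}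
    (hA : A.LiesOverPrime q) {σ : AbsGal} (hσ : A.IsFrobeniusAt σ q) :
    LinearMap.charpoly (D.eigenAction ι θ σ) = X ^ 2 - C ((q : O) + 1) * X + C (q : O) ∨
      LinearMap.charpoly (D.eigenAction ι θ σ) = X ^ 2 + C ((q : O) + 1) * X + C (q : O) := by
  have hrank := D.finrank_eigenspace_domain θ
  have hunip := fun τ hτ => eigenAction_sub_one_sq D ι θ hU hA (τ := τ) hτ
  obtain ⟨v, hv0, hv⟩ := exists_common_fixed hrank (D.eigenAction ι θ) _ hunip
  refine charpoly_eq_of_sq hrank _ _ (Nat.cast_ne_zero.2 hq.ne_zero)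
    (D.det_eigenAction_of_roots ι θ hp fun n ζ hζ => GaloisReps.frobenius_apply_root hA hq hσ hζ
      fun h => hqp ((Nat.prime_dvd_prime_iff_eq hq Fact.out).1 (hq.dvd_of_dvd_pow h)))
    hv0 (Subtype.ext ?_)
  have h := mulVec_eq_zero_of_fixed ι (D.gal '' (A.inertiaSubgroupIn ℚ : Set AbsGal))
    (D.gal σ * D.gal σ * matIn D.hecke ℤ_[p] (toricOp t hℓ) -
      (q : ℤ_[p]) ^ 2 • matIn D.hecke ℤ_[p] (toricOp t hℓ))
    (fun w hw => hT R hR hRq t ht ℓ hℓ hℓN A hA σ hσ w fun τ hτ => hw _ ⟨τ, hτ, rfl⟩)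
    (v := v.1) (by
      rintro _ ⟨τ, hτ, rfl⟩
      rw [← D.coe_eigenAction, hv τ hτ])
  have e : ι.mapMatrix ((q : ℤ_[p]) ^ 2 • matIn D.hecke ℤ_[p] (toricOp t hℓ)) =
      (q : O) ^ 2 • matIn D.hecke O (toricOp t hℓ) := by
    ext i j
    simp
  rw [← RingHom.mapMatrix_apply, map_sub, map_mul, map_mul, e, RingHom.mapMatrix_apply,
    RingHom.mapMatrix_apply, D.matIn_map, Matrix.sub_mulVec, Matrix.smul_mulVec,
    ← Matrix.mulVec_mulVec, ← Matrix.mulVec_mulVec,
    (GaloisReps.mem_eigenspace D.hecke θ _).1 v.2 (toricOp t hℓ), Matrix.mulVec_smul,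
    Matrix.mulVec_smul, smul_comm ((q : O) ^ 2), ← smul_sub] at h
  rw [SetLike.val_smul, D.coe_eigenAction, D.coe_eigenAction]
  exact sub_eq_zero.1 ((smul_eq_zero.1 h).resolve_left hθt)

theorem eigenChar_toFull {g : CuspForm (Gamma0 N) 2} (hg : g.IsNormalizedEigenform) (S : Set ℕ)
    (t : CuspForm.heckeAlgebra N 2 S) :
    ConductorLevel.eigenChar hg ∅ (toFull S t) = ConductorLevel.eigenChar hg S t := by
  simp only [ConductorLevel.eigenChar, RingHom.coe_mk, MonoidHom.coe_mk, OneHom.coe_mk,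
    GaloisReps.toFull, Subalgebra.coe_inclusion]

/-- A character extending `f ∘ χ` whose kernel is contained in that of `χ₀`. -/
theorem exists_compatible_char {A B : Type} [CommRing A] [CommRing B] [Module.Finite ℤ B]
    (i : A →+* B) (χ : A →+* ℂ) (χ₀ : B →+* ℂ) (hcomp : ∀ a, χ a = χ₀ (i a))
    {K : Type} [Field K] [IsAlgClosed K] [CharZero K] (f : χ.range →+* K) :
    ∃ θ : B →+* K, (∀ a, θ (i a) = f (χ.rangeRestrict a)) ∧ ∀ b, θ b = 0 → χ₀ b = 0 := by
  have hfin : Module.Finite ℤ χ₀.range := Module.Finite.of_surjective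
    χ₀.rangeRestrict.toAddMonoidHom.toIntLinearMap χ₀.rangeRestrict_surjective
  have hle : χ.range ≤ χ₀.range := by
    rintro _ ⟨a, rfl⟩
    exact ⟨i a, (hcomp a).symm⟩
  let incl : χ.range →+* χ₀.range := Subring.inclusion hle
  have hincl : Function.Injective incl := fun a b h =>
    Subtype.ext (congrArg (fun x : χ₀.range => (x : ℂ)) h)
  obtain ⟨e, he⟩ := GaloisReps.exists_extend_of_int incl hincl f
  have heinj : Function.Injective e := by
    rw [RingHom.injective_iff_ker_eq_bot]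
    refine Ideal.eq_bot_of_comap_eq_bot (R := ℤ) ?_
    rw [RingHom.comap_ker, RingHom.ext_int (e.comp (algebraMap ℤ _)) (Int.castRingHom K),
      ← RingHom.injective_iff_ker_eq_bot]
    exact Int.cast_injective
  refine ⟨e.comp χ₀.rangeRestrict, fun a => ?_, fun b hb => ?_⟩
  · rw [← he (χ.rangeRestrict a)]
    exact congrArg e (Subtype.ext (hcomp a).symm)
  · rw [RingHom.comp_apply, map_eq_zero_iff e heinj] at hb
    exact congrArg Subtype.val hb

/-- A character of the Hecke algebra, with values in a finite extension of `O'`, whose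
representation on a model has the Frobenius polynomials of `g`; it kills no more than `g`. -/
theorem exists_model_char
    {M : ℕ} [NeZero M] {g : CuspForm (Gamma0 M) 2} (hg : g.IsNewform)
    {lam : ℕ} [Fact lam.Prime] (D : HeckeGaloisModel M lam) (S : Finset ℕ)
    (O' : Type) [CommRing O'] [IsDomain O'] [IsDiscreteValuationRing O']
    [IsAdicComplete (IsLocalRing.maximalIdeal O') O'] [Finite (IsLocalRing.ResidueField O')]
    [CharZero O'] (hlamO' : (lam : O') ∈ IsLocalRing.maximalIdeal O')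
    (chig : CuspForm.heckeAlgebra M 2 (↑S : Set ℕ) →+* ℂ)
    (hchig : ∀ (ℓ : ℕ) (hℓ : ℓ.Prime) (hℓM : ¬ ℓ ∣ M) (hℓS : ℓ ∉ (↑S : Set ℕ)),
      chig (CuspForm.heckeAlgebra.T hℓ hℓM hℓS) = ModularFormClass.qCoeff g ℓ)
    (iota : chig.range →+* O')
    (hlamS : lam ∈ S) (hMS : ∀ q : ℕ, q.Prime → q ∣ M → q ∈ S) :
    ∃ (O'' : Type) (_ : CommRing O'') (_ : IsDomain O'') (_ : IsDiscreteValuationRing O'')
      (_ : IsAdicComplete (IsLocalRing.maximalIdeal O'') O'')
      (_ : Finite (IsLocalRing.ResidueField O''))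
      (_ : CharZero O'') (_ : Algebra O' O'') (_ : Module.Finite O' O'')
      (_ : IsLocalHom (algebraMap O' O'')),
      Function.Injective (algebraMap O' O'') ∧
      ∃ (ι : ℤ_[lam] →+* O'') (θ : FullHecke M →+* O'')
        (hpO : (lam : O'') ∈ IsLocalRing.maximalIdeal O''),
        (∀ b, θ b = 0 → ConductorLevel.eigenChar hg.1 ∅ b = 0) ∧
        (∀ (ℓ : ℕ) (hℓ : ℓ.Prime) (hℓM : ¬ ℓ ∣ M) (hℓS : ℓ ∉ (↑S : Set ℕ)),
          ∀ A : ValuationSubring (AlgebraicClosure ℚ), A.LiesOverPrime ℓ →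
            ∀ σ : AlgebraicClosure ℚ ≃ₐ[ℚ] AlgebraicClosure ℚ, A.IsFrobeniusAt σ ℓ →
              LinearMap.charpoly ((D.rep ι θ hpO).ρ σ) =
                X ^ 2 - C (algebraMap O' O''
                  ((iota.comp chig.rangeRestrict) (CuspForm.heckeAlgebra.T hℓ hℓM hℓS))) * X
                  + C ((ℓ : O''))) := by
  classical
  have : Module.Finite ℤ (FullHecke M) := IntegralStructure.heckeAlgebra_finite M 2 ∅
  set χ₀ := ConductorLevel.eigenChar hg.1 ∅ with hχ₀
  have hchar : ∀ t, chig t = χ₀ (toFull _ t) := by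
    rintro ⟨x, hx⟩
    induction hx using Algebra.adjoin_induction with
    | mem y hy =>
      rcases hy with ⟨ℓ, hℓ, hℓM, hℓS, rfl⟩ | ⟨q, hqM, hq, hqS, rfl⟩
      · exact (hchig ℓ hℓ hℓM hℓS).trans
          (ConductorLevel.eigenChar_T hg.1 hℓ hℓM hℓS).symm
      · exact absurd (hMS q hq hqM) hqS
    | algebraMap z =>
      exact RingHom.congr_fun
        (RingHom.ext_int (chig.comp (algebraMap ℤ _)) ((χ₀.comp (toFull _).toRingHom).comp
          (algebraMap ℤ _))) z
    | add a b ha hb iha ihb =>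
      have h := congrArg₂ (· + ·) iha ihb
      rw [← map_add, ← map_add, ← map_add] at h
      exact h
    | mul a b ha hb iha ihb =>
      have h := congrArg₂ (· * ·) iha ihb
      rw [← map_mul, ← map_mul, ← map_mul] at h
      exact h
  set K := AlgebraicClosure (FractionRing O')
  have hK : CharZero K := by
    have : CharZero (FractionRing O') :=
      charZero_of_injective_algebraMap (IsFractionRing.injective O' (FractionRing O'))
    exact charZero_of_injective_algebraMap (algebraMap (FractionRing O') K).injective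
  obtain ⟨θ, hθ, hθker⟩ := exists_compatible_char (toFull (↑S : Set ℕ)).toRingHom chig χ₀ hchar
    ((algebraMap O' K).comp iota)
  obtain ⟨O'', i1, i2, i3, i4, i5, i6, i7, i8, i9, j, θ', hinj, hjinj, hcomm, hθ'⟩ :=
    GaloisReps.exists_coeffExt O' θ
  have hpO : (lam : O'') ∈ IsLocalRing.maximalIdeal O'' := by
    rw [← map_natCast (algebraMap O' O'') lam]
    exact map_nonunit (algebraMap O' O'') _ hlamO'
  obtain ⟨ι⟩ := GaloisReps.exists_padicHom O'' hpO
  refine ⟨O'', i1, i2, i3, i4, i5, i6, i7, i8, i9, hinj, ι, θ', hpO,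
    fun b hb => hθker b (by rw [← hθ', RingHom.comp_apply, hb, map_zero]), ?_⟩
  intro ℓ hℓ hℓM hℓS A hA σ hσ
  have hNp : ¬ ℓ ∣ M * lam := fun h => (hℓ.dvd_mul.mp h).elim hℓM fun h' =>
    hℓS (by rw [(Nat.prime_dvd_prime_iff_eq hℓ Fact.out).mp h']; exact hlamS)
  have e' : θ' (HeckeDuality.heckeOp M 2 ℓ hℓ) = algebraMap O' O''
      ((iota.comp chig.rangeRestrict) (CuspForm.heckeAlgebra.T hℓ hℓM hℓS)) := by
    refine hjinj ?_
    rw [← RingHom.comp_apply j θ', hθ', ← RingHom.comp_apply j, hcomm,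
      ← GaloisReps.toFull_T hℓ hℓM hℓS]
    exact hθ (CuspForm.heckeAlgebra.T hℓ hℓM hℓS)
  rw [← e']
  exact D.charpoly_eigenAction_frobenius ι θ' GaloisReps.frobeniusDensity hpO hℓ hNp hA hσ

/-- The statement of S35, given models with the two local inputs. -/
theorem exists_rep_of_models
    (hD : ∀ (N p : ℕ) [NeZero N] [Fact p.Prime], ∃ D : HeckeGaloisModel N p,
      ∀ q : ℕ, q.Prime → q ≠ p → q ∣ N → ¬ q ^ 2 ∣ N → UnipotentAt D q ∧ ToricSquareAt D q)
    {M : ℕ} [NeZero M] {g : CuspForm (Gamma0 M) 2} (hg : g.IsNewform)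
    (lam : ℕ) [Fact lam.Prime] (S : Finset ℕ)
    (O' : Type) [CommRing O'] [IsDomain O'] [IsDiscreteValuationRing O']
    [IsAdicComplete (IsLocalRing.maximalIdeal O') O'] [Finite (IsLocalRing.ResidueField O')]
    [CharZero O'] (hlamO' : (lam : O') ∈ IsLocalRing.maximalIdeal O')
    (chig : CuspForm.heckeAlgebra M 2 (↑S : Set ℕ) →+* ℂ)
    (hchig : ∀ (ℓ : ℕ) (hℓ : ℓ.Prime) (hℓM : ¬ ℓ ∣ M) (hℓS : ℓ ∉ (↑S : Set ℕ)),
      chig (CuspForm.heckeAlgebra.T hℓ hℓM hℓS) = ModularFormClass.qCoeff g ℓ)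
    (iota : chig.range →+* O')
    (hlamS : lam ∈ S) (hMS : ∀ q : ℕ, q.Prime → q ∣ M → q ∈ S) :
    ∃ (O'' : Type) (_ : CommRing O'') (_ : IsDomain O'') (_ : IsDiscreteValuationRing O'')
      (_ : IsAdicComplete (IsLocalRing.maximalIdeal O'') O'')
      (_ : Finite (IsLocalRing.ResidueField O''))
      (_ : CharZero O'') (_ : Algebra O' O'') (_ : Module.Finite O' O'')
      (_ : IsLocalHom (algebraMap O' O'')),
      Function.Injective (algebraMap O' O'') ∧
      ∃ ρ : GaloisRepAdic O'',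
        (∀ (ℓ : ℕ) (hℓ : ℓ.Prime) (hℓM : ¬ ℓ ∣ M) (hℓS : ℓ ∉ (↑S : Set ℕ)),
          ∀ A : ValuationSubring (AlgebraicClosure ℚ), A.LiesOverPrime ℓ →
            ∀ σ : AlgebraicClosure ℚ ≃ₐ[ℚ] AlgebraicClosure ℚ, A.IsFrobeniusAt σ ℓ →
              LinearMap.charpoly (ρ.ρ σ) =
                X ^ 2 - C (algebraMap O' O''
                  ((iota.comp chig.rangeRestrict) (CuspForm.heckeAlgebra.T hℓ hℓM hℓS))) * X
                  + C ((ℓ : O''))) ∧
        (∀ q : ℕ, q.Prime → q ≠ lam → q ∣ M → ¬ q ^ 2 ∣ M →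
          ∀ A : ValuationSubring (AlgebraicClosure ℚ), A.LiesOverPrime q →
            ∀ σ : AlgebraicClosure ℚ ≃ₐ[ℚ] AlgebraicClosure ℚ, A.IsFrobeniusAt σ q →
              LinearMap.charpoly (ρ.ρ σ) = X ^ 2 - C ((q : O'') + 1) * X + C ((q : O'')) ∨
              LinearMap.charpoly (ρ.ρ σ) = X ^ 2 + C ((q : O'') + 1) * X + C ((q : O''))) := by
  classical
  obtain ⟨D, hDq⟩ := hD M lam
  obtain ⟨O'', i1, i2, i3, i4, i5, i6, i7, i8, i9, hinj, ι, θ', hpO, hθker, hgood⟩ :=
    exists_model_char hg D S O' hlamO' chig hchig iota hlamS hMS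
  refine ⟨O'', i1, i2, i3, i4, i5, i6, i7, i8, i9, hinj, D.rep ι θ' hpO, hgood, ?_⟩
  intro q hq hqlam hqM hq2 A hA σ hσ
  have hR : M / q ∣ M := Nat.div_dvd_of_dvd hqM
  have hRq : M / q * q = M := Nat.div_mul_cancel hqM
  have : NeZero (M / q) := ⟨fun h => NeZero.ne M (by rw [← hRq, h, zero_mul])⟩
  obtain ⟨t, ht, htg⟩ := exists_killsOld_ne_zero hg hR
    (Nat.div_lt_self (Nat.pos_of_ne_zero (NeZero.ne M)) hq.one_lt).ne
  obtain ⟨ℓ, hℓ, hℓT, hne⟩ := exists_coeff_ne_succ hg.1 (M * lam).primeFactors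
  have hℓN : ¬ ℓ ∣ M * lam := fun h => hℓT (Nat.mem_primeFactors.mpr
    ⟨hℓ, h, mul_ne_zero (NeZero.ne M) (Fact.out : lam.Prime).ne_zero⟩)
  refine charpoly_frobenius_bad D ι θ' hpO hq hqlam hR hRq (hDq q hq hqlam hqM hq2).1
    (hDq q hq hqlam hqM hq2).2 t ht hℓ hℓN (fun h0 => ?_) hA hσ
  have h2 := hθker _ h0
  rw [toricOp, map_mul, map_sub, map_natCast, eigenChar_toFull, mul_eq_zero] at h2
  have hℓM : ¬ ℓ ∣ M := fun h => hℓN (dvd_mul_of_dvd_left h lam)
  have h3 : ConductorLevel.eigenChar hg.1 ∅ (HeckeDuality.heckeOp M 2 ℓ hℓ) = qCoeff g ℓ := by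
    rw [HeckeDuality.heckeOp, dif_neg hℓM]
    exact ConductorLevel.eigenChar_T hg.1 hℓ hℓM _
  rw [h3, sub_eq_zero, Nat.cast_add, Nat.cast_one] at h2
  exact h2.elim htg hne

end Fermat.Agent.NewformLocal
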