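import Fermat.Agent.NewformLocal.Toric.Square
import Fermat.Agent.GaloisReps.UnipotentModel
import Fermat.Agent.Semistable.Torsion

/-!
# The models with the two local properties at the primes exactly dividing the level
-/

set_option autoImplicit false

noncomputable section

namespace Fermat.Agent.NewformLocal

open GaloisReps (CongruenceProperty HeckeGaloisModel modelOfCongruence)

/-- Inertia is unipotent and the square of Frobenius is `q ^ 2` on the toric part. -/
theorem exists_models (hES : ∀ (N p : ℕ) [NeZero N] [Fact p.Prime], CongruenceProperty N p)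
    (N p : ℕ) [NeZero N] [Fact p.Prime] : ∃ D : HeckeGaloisModel N p,
      ∀ q : ℕ, q.Prime → q ≠ p → q ∣ N → ¬ q ^ 2 ∣ N → UnipotentAt D q ∧ ToricSquareAt D q :=
  ⟨modelOfCongruence (hES N p), fun _ hq hqp hqN hq2 =>
    ⟨GaloisReps.unipotentAt_modelOfCongruence (hES N p) hq hqp
      (Semistable.torsionUnipotentAt hq hqN hq2), Toric.toricSquareAt (hES N p) hq hqp hq2⟩⟩

end Fermat.Agent.NewformLocal

end
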