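import Fermat.Agent.GaloisReps.Characters
import Fermat.Agent.ConductorLevel.Eigen
import Fermat.Agent.IntegralStructure.Duality
import Fermat.Agent.Newforms.Newform
import Fermat.Agent.OrdinaryAtP.Restrict

/-!
# Hecke operators which kill the forms of lower level but not a newform
-/

set_option autoImplicit false

noncomputable section

open CongruenceSubgroup ModularFormClass

namespace Fermat.Agent.NewformLocal

/-- The set of prime divisors of `N`, as a set of excluded primes. -/
abbrev levelPrimes (N : ℕ) : Set ℕ := {p | p ∣ N}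

/-- Every character of the full Hecke algebra has an eigenform. -/
theorem exists_eigen_of_character {R : ℕ} [NeZero R]
    (θ : CuspForm.heckeAlgebra R 2 ∅ →+* ℂ) :
    ∃ f : CuspForm (Gamma0 R) 2, f ≠ 0 ∧
      ∀ t : CuspForm.heckeAlgebra R 2 ∅, t.1 f = θ t • f := by
  obtain ⟨f, hf⟩ := IntegralStructure.exists_cuspForm_of_functional θ.toIntAlgHom.toLinearMap
  refine ⟨f, fun h0 => ?_, fun t => ?_⟩
  · have h1 := hf 1
    rw [h0, map_zero] at h1
    exact zero_ne_one ((h1.trans (map_one θ) : (0 : ℂ) = 1))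
  · refine IntegralStructure.heckePairing_injective (LinearMap.ext fun s => ?_)
    rw [map_smul, LinearMap.smul_apply, smul_eq_mul]
    have h2 : IntegralStructure.heckePairing R (t.1 f) s =
        IntegralStructure.heckePairing R f (s * t) := rfl
    rw [h2, hf, hf]
    exact (map_mul θ s t).trans (mul_comm _ _)

variable {M R : ℕ} [NeZero M] [NeZero R]

/-- For a newform `g` of level `M` and a proper divisor `R` of `M` some Hecke operator away from
`M` kills the forms coming from level `R` and does not kill `g`. -/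
theorem exists_killsOld_ne_zero {g : CuspForm (Gamma0 M) 2} (hg : g.IsNewform) (hR : R ∣ M)
    (hne : R ≠ M) :
    ∃ t : CuspForm.heckeAlgebra M 2 (levelPrimes M),
      (∀ f : CuspForm (Gamma0 R) 2, t.1 (Newforms.levelIncl hR f) = 0) ∧
        ConductorLevel.eigenChar hg.1 (levelPrimes M) t ≠ 0 := by
  classical
  by_contra! hall
  obtain ⟨r, hres, hrT⟩ := OrdinaryAtP.exists_restrictHom (M := M) (R := R) hR
    (Set.Subset.refl (levelPrimes M)) fun _ _ h => h
  have hsurj : Function.Surjective r := by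
    rintro ⟨x, hx⟩
    induction hx using Algebra.adjoin_induction with
    | mem y hy =>
      rcases hy with ⟨ℓ, hℓ, hℓR, hℓS, rfl⟩ | ⟨q, hqR, -, hqS, rfl⟩
      · exact ⟨CuspForm.heckeAlgebra.T hℓ hℓS hℓS, hrT ℓ hℓ hℓS hℓS⟩
      · exact absurd (hqR.trans hR) hqS
    | algebraMap z => exact ⟨(z : CuspForm.heckeAlgebra M 2 (levelPrimes M)), by
        rw [map_intCast]; exact Subtype.ext (by simp)⟩
    | add y z _ _ hy hz =>
      obtain ⟨a, ha⟩ := hy
      obtain ⟨b, hb⟩ := hz
      exact ⟨a + b, by rw [map_add, ha, hb]; rfl⟩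
    | mul y z _ _ hy hz =>
      obtain ⟨a, ha⟩ := hy
      obtain ⟨b, hb⟩ := hz
      exact ⟨a * b, by rw [map_mul, ha, hb]; rfl⟩
  let χ := ConductorLevel.eigenChar hg.1 (levelPrimes M)
  have hker : ∀ t, r t = 0 → χ t = 0 := fun t ht => hall t fun f => by
    rw [hres t f]
    show Newforms.levelIncl hR ((r t).1 f) = 0
    rw [ht]
    simp
  let χR : CuspForm.heckeAlgebra R 2 (levelPrimes M) →+* ℂ :=
    RingHom.liftOfSurjective r hsurj ⟨χ, hker⟩
  obtain ⟨θ, hθ⟩ := GaloisReps.exists_extend_character (levelPrimes M) χR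
  obtain ⟨f, hf0, hf⟩ := exists_eigen_of_character θ
  refine hf0 (Newforms.eq_zero_of_eigen_at_lower_level hg hR hne fun ℓ hℓ hℓM => ?_)
  have hℓR : ¬ ℓ ∣ R := fun h => hℓM (h.trans hR)
  have e := hrT ℓ hℓ hℓM hℓM
  have hc : χR (r (CuspForm.heckeAlgebra.T hℓ hℓM hℓM)) = qCoeff g ℓ :=
    (RingHom.liftOfRightInverse_comp_apply _ _ _ ⟨χ, hker⟩ _).trans
      (ConductorLevel.eigenChar_T hg.1 hℓ hℓM hℓM)
  rw [e, ← hθ, GaloisReps.toFull_T hℓ hℓR hℓM] at hc
  exact (hf (HeckeDuality.heckeOp R 2 ℓ hℓ)).trans (by rw [hc])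

end Fermat.Agent.NewformLocal
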